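import Mathlib.RingTheory.DiscreteValuationRing.Basic
import Mathlib.RingTheory.MvPowerSeries.Equiv
import Mathlib.RingTheory.MvPowerSeries.Inverse
import Mathlib.RingTheory.MvPowerSeries.NoZeroDivisors
import Mathlib.RingTheory.PowerSeries.Inverse
import Mathlib.RingTheory.Regular.RegularSequence
import Fermat.Agent.AV.SpanPow

/-!
# The standard regular sequence of `O⟦X₁, …, X_r⟧` for a DVR `O`

The variables and a uniformiser: the input of the freeness criterion in patching.
-/

namespace Fermat.Agent.Patching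

open RingTheory.Sequence
open scoped Pointwise

variable {O : Type} [CommRing O]

/-- Prepend the generator of the kernel of a surjection to a weakly regular sequence. -/
lemma isWeaklyRegular_cons_of_ker {R S : Type} [CommRing R] [CommRing S] (f : R →+* S)
    (hf : Function.Surjective f) {x : R} (hker : RingHom.ker f = Ideal.span {x})
    (hx : IsSMulRegular R x) {rs : List R} (h : IsWeaklyRegular S (rs.map f)) :
    IsWeaklyRegular R (x :: rs) := by
  algebraize [f]
  rw [isWeaklyRegular_cons_iff]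
  refine ⟨hx, ?_⟩
  have h' : IsWeaklyRegular S rs := (isWeaklyRegular_map_algebraMap_iff S S rs).mp h
  have hk : LinearMap.ker (Algebra.linearMap R S) = (x • ⊤ : Submodule R R) := by
    rw [← Submodule.ideal_span_singleton_smul, smul_eq_mul, Ideal.mul_top, ← hker]
    rfl
  exact (LinearEquiv.isWeaklyRegular_congr
    ((Submodule.quotEquivOfEq _ _ hk.symm).trans
      ((Algebra.linearMap R S).quotKerEquivOfSurjective hf)) rs).mpr h'

/-- The quotient map `O⟦X₀, …, X_n⟧ → O⟦X₁, …, X_n⟧` killing `X₀`. -/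
noncomputable def dropFirst (n : ℕ) :
    MvPowerSeries (Fin (n + 1)) O →+* MvPowerSeries (Fin n) O :=
  PowerSeries.constantCoeff.comp (MvPowerSeries.finSuccEquiv O n).toRingEquiv.toRingHom

lemma dropFirst_apply (n : ℕ) (f : MvPowerSeries (Fin (n + 1)) O) :
    dropFirst n f = PowerSeries.constantCoeff (MvPowerSeries.finSuccEquiv O n f) := rfl

lemma dropFirst_surjective (n : ℕ) : Function.Surjective (dropFirst (O := O) n) := fun g =>
  ⟨(MvPowerSeries.finSuccEquiv O n).symm (PowerSeries.C g), by simp [dropFirst_apply]⟩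

/-- The kernel is generated by `X₀`. -/
lemma ker_dropFirst (n : ℕ) :
    RingHom.ker (dropFirst (O := O) n) = Ideal.span {MvPowerSeries.X 0} := by
  ext f
  rw [RingHom.mem_ker, dropFirst_apply, ← PowerSeries.X_dvd_iff, Ideal.mem_span_singleton,
    ← map_dvd_iff (MvPowerSeries.finSuccEquiv O n) (a := MvPowerSeries.X 0),
    MvPowerSeries.finSuccEquiv_X_zero]

variable (ϖ : O)

/-- The sequence `X₁, …, X_r, ϖ`. -/
noncomputable def paramSeq (r : ℕ) : List (MvPowerSeries (Fin r) O) :=
  List.ofFn (fun i : Fin r => MvPowerSeries.X i) ++ [MvPowerSeries.C ϖ]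

lemma mem_paramSeq {r : ℕ} {x : MvPowerSeries (Fin r) O} :
    x ∈ paramSeq ϖ r ↔ (∃ i, MvPowerSeries.X i = x) ∨ x = MvPowerSeries.C ϖ := by
  simp [paramSeq, List.mem_ofFn]

variable [IsDomain O]

/-- The standard sequence is weakly regular. -/
lemma isWeaklyRegular_paramSeq (hϖ : ϖ ≠ 0) :
    ∀ r : ℕ, IsWeaklyRegular (MvPowerSeries (Fin r) O) (paramSeq ϖ r)
  | 0 => by
    have h0 : (MvPowerSeries.C ϖ : MvPowerSeries (Fin 0) O) ≠ 0 := fun h => hϖ <| by
      simpa using congrArg MvPowerSeries.constantCoeff h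
    simp only [paramSeq, List.ofFn_zero, List.nil_append, isWeaklyRegular_singleton_iff]
    exact IsSMulRegular.of_ne_zero h0
  | n + 1 => by
    have hx : (MvPowerSeries.X 0 : MvPowerSeries (Fin (n + 1)) O) ≠ 0 := fun h => by
      classical
      simpa using congrArg (MvPowerSeries.coeff (Finsupp.single 0 1)) h
    have hmap : ((List.ofFn fun i : Fin n => (MvPowerSeries.X i.succ :
        MvPowerSeries (Fin (n + 1)) O)) ++ [MvPowerSeries.C ϖ]).map (dropFirst n) =
          paramSeq ϖ n := by
      simp [paramSeq, List.map_ofFn, Function.comp_def, dropFirst_apply]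
    have := isWeaklyRegular_cons_of_ker (dropFirst n) (dropFirst_surjective n)
      (ker_dropFirst n) (IsSMulRegular.of_ne_zero hx)
      (rs := (List.ofFn fun i : Fin n => MvPowerSeries.X i.succ) ++ [MvPowerSeries.C ϖ])
      (hmap ▸ isWeaklyRegular_paramSeq hϖ n)
    simpa [paramSeq, List.ofFn_succ] using this

variable [IsDiscreteValuationRing O]

/-- The standard sequence generates the maximal ideal. -/
lemma ofList_paramSeq (hϖ : IsLocalRing.maximalIdeal O = Ideal.span {ϖ}) (r : ℕ) :
    Ideal.ofList (paramSeq ϖ r) = IsLocalRing.maximalIdeal (MvPowerSeries (Fin r) O) := by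
  apply le_antisymm
  · rw [Ideal.span_le]
    intro x hx
    rcases (mem_paramSeq ϖ).mp hx with ⟨i, rfl⟩ | rfl <;>
      simp only [SetLike.mem_coe, IsLocalRing.mem_maximalIdeal, mem_nonunits_iff,
        MvPowerSeries.isUnit_iff_constantCoeff]
    · simp
    · rw [MvPowerSeries.constantCoeff_C, ← mem_nonunits_iff, ← IsLocalRing.mem_maximalIdeal, hϖ]
      exact Ideal.mem_span_singleton_self _
  · intro f hf
    have hc : MvPowerSeries.constantCoeff f ∈ IsLocalRing.maximalIdeal O := by
      rw [IsLocalRing.mem_maximalIdeal, mem_nonunits_iff,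
        MvPowerSeries.isUnit_iff_constantCoeff] at hf
      rwa [IsLocalRing.mem_maximalIdeal, mem_nonunits_iff]
    rw [hϖ, Ideal.mem_span_singleton] at hc
    obtain ⟨t, ht⟩ := hc
    have h1 : MvPowerSeries.C (MvPowerSeries.constantCoeff f) ∈ Ideal.ofList (paramSeq ϖ r) := by
      rw [ht, map_mul]
      exact Ideal.mul_mem_right _ _ (Ideal.subset_span ((mem_paramSeq ϖ).mpr (Or.inr rfl)))
    have h2 : f - MvPowerSeries.C (MvPowerSeries.constantCoeff f) ∈
        Ideal.ofList (paramSeq ϖ r) := by
      refine Ideal.span_mono ?_ (AV.Series.sub_C_constantCoeff_mem f)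
      rintro _ ⟨i, rfl⟩
      exact (mem_paramSeq ϖ).mpr (Or.inl ⟨i, rfl⟩)
    simpa using add_mem h2 h1

/-- **The standard sequence is regular.** -/
lemma isRegular_paramSeq (hϖ0 : ϖ ≠ 0)
    (hϖ : IsLocalRing.maximalIdeal O = Ideal.span {ϖ}) (r : ℕ) :
    IsRegular (MvPowerSeries (Fin r) O) (paramSeq ϖ r) := by
  refine ⟨isWeaklyRegular_paramSeq ϖ hϖ0 r, ?_⟩
  rw [smul_eq_mul, Ideal.mul_top, ofList_paramSeq ϖ hϖ r]
  exact Ne.symm (IsLocalRing.maximalIdeal.isMaximal _).ne_top

end Fermat.Agent.Patching
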