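import Mathlib.Algebra.Category.ModuleCat.Projective
import Mathlib.RingTheory.FiniteLength
import Mathlib.RingTheory.LocalRing.Module
import Mathlib.RingTheory.Regular.ProjectiveDimension

/-!
# A freeness criterion of Auslander–Buchsbaum type

Let `A` be a Noetherian local ring whose maximal ideal is generated by a regular sequence `rs`.
A finite module `M` with a weakly regular sequence `ys` in the maximal ideal, of the same length
as `rs` and with `M / ys M` of finite length, is free.
-/

namespace Fermat.Agent.Patching

open CategoryTheory IsLocalRing RingTheory.Sequence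

variable {A : Type} [CommRing A] [IsLocalRing A] [IsNoetherianRing A]

/-- A simple module has projective dimension at most the length of the regular sequence. -/
lemma projectiveDimension_simple_le {rs : List A} (hreg : IsRegular A rs)
    (hmax : Ideal.ofList rs = maximalIdeal A)
    (S : Type) [AddCommGroup S] [Module A S] [IsSimpleModule A S] :
    projectiveDimension (ModuleCat.of A S) ≤ rs.length := by
  obtain ⟨I, hI, ⟨e⟩⟩ := isSimpleModule_iff_quot_maximal.mp (inferInstance : IsSimpleModule A S)
  have hI' : I = Ideal.ofList rs := by rw [hmax]; exact IsLocalRing.eq_maximalIdeal hI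
  subst hI'
  rw [← ModuleCat.projectiveDimension_quotient_eq_length rs hreg]
  exact le_of_eq (projectiveDimension_eq_of_iso
    (e ≪≫ₗ (Shrink.linearEquiv A _).symm).toModuleIso)

/-- A module of finite length has projective dimension at most the length of the regular
sequence generating the maximal ideal. -/
lemma hasProjectiveDimensionLT_of_isFiniteLength {rs : List A} (hreg : IsRegular A rs)
    (hmax : Ideal.ofList rs = maximalIdeal A) (Q : Type) [AddCommGroup Q] [Module A Q]
    (hQ : IsFiniteLength A Q) :
    HasProjectiveDimensionLT (ModuleCat.of A Q) (rs.length + 1) := by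
  induction hQ with
  | @of_subsingleton Q _ _ _ =>
    have hz : Limits.IsZero (ModuleCat.of A Q) := by
      rw [ModuleCat.isZero_iff_subsingleton]; assumption
    have := hz.hasProjectiveDimensionLT_zero
    exact hasProjectiveDimensionLT_of_ge _ 0 _ (Nat.zero_le _)
  | @of_simple_quotient Q _ _ N _ _ ih =>
    have hS := LinearMap.shortExact_shortComplexKer N.mkQ_surjective
    refine hS.hasProjectiveDimensionLT_X₂ (rs.length + 1) ?_ ?_
    · rw [← projectiveDimension_lt_iff] at ih ⊢
      refine lt_of_le_of_lt (le_of_eq ?_) ih
      exact projectiveDimension_eq_of_iso (LinearEquiv.ofEq _ _ N.ker_mkQ).toModuleIso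
    · exact (projectiveDimension_le_iff _ _).mp (projectiveDimension_simple_le hreg hmax (Q ⧸ N))

/-- A finite module with a weakly regular sequence in the maximal ideal, as long as a regular
sequence generating the maximal ideal and with quotient of finite length, is free. -/
theorem free_of_regular_of_finiteLength {rs ys : List A} (hreg : IsRegular A rs)
    (hmax : Ideal.ofList rs = maximalIdeal A)
    (M : Type) [AddCommGroup M] [Module A M] [Module.Finite A M] [Nontrivial M]
    (hys : IsWeaklyRegular M ys) (hmem : ∀ y ∈ ys, y ∈ maximalIdeal A)
    (hlen : ys.length = rs.length)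
    (hfl : IsFiniteLength A (M ⧸ (Ideal.ofList ys • ⊤ : Submodule A M))) :
    Module.Free A M := by
  have h1 := ModuleCat.projectiveDimension_quotient_eq_add_length_of_isWeaklyRegular
    (ModuleCat.of A M) ys hys hmem
  have h2 := (projectiveDimension_le_iff _ _).mpr
    (hasProjectiveDimensionLT_of_isFiniteLength hreg hmax _ hfl)
  rw [h1, hlen] at h2
  have h3 : projectiveDimension (ModuleCat.of A M) + (rs.length : WithBot ℕ∞) ≤
      ((0 : ℕ) : WithBot ℕ∞) + (rs.length : WithBot ℕ∞) := by simpa using h2
  rw [ENat.WithBot.add_le_add_natCast_right_iff, projectiveDimension_le_iff] at h3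
  have hp : CategoryTheory.Projective (ModuleCat.of A M) :=
    (projective_iff_hasProjectiveDimensionLE_zero _).mpr h3
  have : Module.Projective A M := (IsProjective.iff_projective _).mpr hp
  exact Module.free_of_flat_of_isLocalRing

end Fermat.Agent.Patching
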