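import Fermat.Prelude.Def_Algebra_PatchingDatum
import Fermat.Agent.Patching.FreeCriterion
import Fermat.Agent.Patching.PowerSeriesRegular

/-!
# The descent step of patching

A patched module which is free over the power series ring gives freeness of the bottom module and
`R = T`.
-/

namespace Fermat.Agent.Patching

open RingTheory.Sequence

variable {𝒪 : Type} [CommRing 𝒪] {r : ℕ} {R : Type} [CommRing R] [Algebra 𝒪 R]
  {M : Type} [AddCommGroup M] [Module R M] {J : Ideal (MvPowerSeries (Fin r) 𝒪)}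
  (L : Algebra.PatchingLevel 𝒪 r R M J)

/-- The ideal generated by the `φ(X_i)`. -/
noncomputable def phiIdeal : Ideal (MvPowerSeries (Fin r) 𝒪) :=
  Ideal.span (Set.range fun i : Fin r => L.φ (MvPowerSeries.X i))

/-- The images of the variables die in the bottom ring. -/
lemma phiIdeal_le_ker : phiIdeal L ≤ RingHom.ker L.ψ :=
  Ideal.span_le.mpr (by rintro _ ⟨i, rfl⟩; exact L.ψ_φ_X i)

/-- The parametrisation `c ↦ ∑ φ(cᵢ) • bᵢ`. -/
noncomputable def coordMap : (Fin L.d → MvPowerSeries (Fin r) 𝒪) →+ L.N where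
  toFun c := ∑ i, L.φ (c i) • L.b i
  map_zero' := by simp
  map_add' c c' := by simp [add_smul, Finset.sum_add_distrib]

lemma coordMap_smul (x : MvPowerSeries (Fin r) 𝒪) (c : Fin L.d → MvPowerSeries (Fin r) 𝒪) :
    coordMap L (x • c) = L.φ x • coordMap L c := by
  simp [coordMap, Finset.smul_sum, smul_smul]

/-- The parametrisation is onto. -/
lemma coordMap_surjective : Function.Surjective (coordMap L) := fun x => by
  obtain ⟨c, hc⟩ := L.b_span x
  exact ⟨c, hc.symm⟩

/-- The patched module is finite over the power series ring. -/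
lemma module_finite_N : Module.Finite (MvPowerSeries (Fin r) 𝒪) L.N := by
  refine Module.Finite.of_surjective (Fintype.linearCombination (MvPowerSeries (Fin r) 𝒪) L.b) ?_
  intro x
  obtain ⟨c, hc⟩ := L.b_span x
  exact ⟨fun i => L.φ (c i), by simp [Fintype.linearCombination_apply, hc]⟩

/-- The patched module is free over the power series ring. -/
lemma free_N [IsDomain 𝒪] [IsDiscreteValuationRing 𝒪] [Nontrivial M]
    (hJ : J = ⊥) : Module.Free (MvPowerSeries (Fin r) 𝒪) L.N := by
  subst hJ
  obtain ⟨ϖ, hirr⟩ := IsDiscreteValuationRing.exists_irreducible 𝒪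
  have hmax := hirr.maximalIdeal_eq
  have : Module.Finite (MvPowerSeries (Fin r) 𝒪) L.N := module_finite_N L
  have : Nontrivial L.N := L.π_surjective.nontrivial
  set ys := (paramSeq ϖ r).map L.φ
  let e : (Fin L.d → MvPowerSeries (Fin r) 𝒪) ≃+ L.N :=
    AddEquiv.ofBijective (coordMap L) ⟨(injective_iff_map_eq_zero _).mpr fun c hc =>
      funext fun i => (Submodule.mem_bot _).mp ((L.b_rel c).mp hc i), coordMap_surjective L⟩
  -- `ys` is weakly regular on `N`
  have hys : IsWeaklyRegular L.N ys := by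
    refine (e.isWeaklyRegular_congr (bs := ys) ?_).mp
      ((isWeaklyRegular_paramSeq ϖ hirr.ne_zero r).isWeaklyRegular_lTensor
        (M₂ := Fin L.d → MvPowerSeries (Fin r) 𝒪) |>
          ((TensorProduct.rid _ _).isWeaklyRegular_congr _).mp)
    exact List.forall₂_map_right_iff.mpr
      (List.forall₂_same.mpr fun x _ c => coordMap_smul L x c)
  -- `ys` lies in the maximal ideal
  have hmem : ∀ y ∈ ys, y ∈ IsLocalRing.maximalIdeal (MvPowerSeries (Fin r) 𝒪) := by
    intro y hy
    obtain ⟨x, hx, rfl⟩ := List.mem_map.mp hy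
    rw [IsLocalRing.mem_maximalIdeal, mem_nonunits_iff]
    intro hu
    rcases (mem_paramSeq ϖ).mp hx with ⟨i, rfl⟩ | rfl
    · have := hu.map L.ψ
      rw [L.ψ_φ_X i, isUnit_zero_iff] at this
      have := subsingleton_of_zero_eq_one this
      have := Module.subsingleton R M
      exact false_of_nontrivial_of_subsingleton M
    · rw [MvPowerSeries.c_eq_algebraMap, AlgHom.commutes, ← MvPowerSeries.c_eq_algebraMap,
        MvPowerSeries.isUnit_iff_constantCoeff, MvPowerSeries.constantCoeff_C] at hu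
      exact hirr.not_isUnit hu
  -- finite length of the quotient
  let : Module 𝒪 L.N := Module.compHom L.N (algebraMap 𝒪 (MvPowerSeries (Fin r) 𝒪))
  have : IsScalarTower 𝒪 (MvPowerSeries (Fin r) 𝒪) L.N :=
    IsScalarTower.of_algebraMap_smul fun _ _ => rfl
  set S := (Ideal.ofList ys • ⊤ : Submodule (MvPowerSeries (Fin r) 𝒪) L.N)
  have hφ : ∀ x ∈ Ideal.ofList (paramSeq ϖ r), L.φ x ∈ Ideal.ofList ys := fun x hx => by
    have := Ideal.mem_map_of_mem L.φ.toRingHom hx
    rwa [Ideal.map_ofList] at this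
  have hdecomp : ∀ x : MvPowerSeries (Fin r) 𝒪, ∀ v : L.N,
      (Submodule.Quotient.mk (L.φ x • v) : L.N ⧸ S) =
        MvPowerSeries.constantCoeff x • Submodule.Quotient.mk v := by
    intro x v
    rw [← Submodule.Quotient.mk_smul, Submodule.Quotient.eq,
      ← algebraMap_smul (MvPowerSeries (Fin r) 𝒪) (MvPowerSeries.constantCoeff x) v,
      ← L.φ.commutes, ← sub_smul, ← map_sub, ← MvPowerSeries.c_eq_algebraMap]
    refine Submodule.smul_mem_smul (hφ _ ?_) trivial
    refine Ideal.span_mono ?_ (AV.Series.sub_C_constantCoeff_mem x)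
    rintro _ ⟨i, rfl⟩
    exact (mem_paramSeq ϖ).mpr (Or.inl ⟨i, rfl⟩)
  have hkill : ∀ a ∈ IsLocalRing.maximalIdeal 𝒪, ∀ q : L.N ⧸ S, a • q = 0 := by
    intro a ha q
    obtain ⟨v, rfl⟩ := Submodule.Quotient.mk_surjective S q
    have h1 := hdecomp (MvPowerSeries.C a) v
    rw [MvPowerSeries.constantCoeff_C] at h1
    rw [← h1, Submodule.Quotient.mk_eq_zero]
    refine Submodule.smul_mem_smul (hφ _ ?_) trivial
    rw [ofList_paramSeq ϖ hmax, IsLocalRing.mem_maximalIdeal, mem_nonunits_iff,
      MvPowerSeries.isUnit_iff_constantCoeff, MvPowerSeries.constantCoeff_C]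
    exact (IsLocalRing.mem_maximalIdeal _).mp ha
  have : IsSimpleModule 𝒪 (𝒪 ⧸ IsLocalRing.maximalIdeal 𝒪) :=
    isSimpleModule_iff_isCoatom.mpr (IsLocalRing.maximalIdeal.isMaximal 𝒪).out
  let g : (Fin L.d → 𝒪 ⧸ IsLocalRing.maximalIdeal 𝒪) →ₗ[𝒪] L.N ⧸ S :=
    LinearMap.lsum 𝒪 (fun _ => 𝒪 ⧸ IsLocalRing.maximalIdeal 𝒪) 𝒪 fun i =>
      (IsLocalRing.maximalIdeal 𝒪).liftQ
        (LinearMap.toSpanSingleton 𝒪 (L.N ⧸ S) (Submodule.Quotient.mk (L.b i)))
        (fun a ha => by simpa using hkill a ha _)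
  have hg : Function.Surjective g := by
    intro q
    obtain ⟨v, rfl⟩ := Submodule.Quotient.mk_surjective S q
    obtain ⟨c, rfl⟩ := L.b_span v
    refine ⟨fun i => Ideal.Quotient.mk _ (MvPowerSeries.constantCoeff (c i)), ?_⟩
    rw [← Submodule.mkQ_apply, map_sum]
    simp only [g, LinearMap.lsum_apply, LinearMap.sum_apply, LinearMap.comp_apply,
      LinearMap.proj_apply, Submodule.mkQ_apply, hdecomp]
    rfl
  have hart : IsArtinian 𝒪 (L.N ⧸ S) := isArtinian_of_surjective _ g hg
  have hart' : IsArtinian (MvPowerSeries (Fin r) 𝒪) (L.N ⧸ S) := isArtinian_of_tower 𝒪 hart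
  have hfl : IsFiniteLength (MvPowerSeries (Fin r) 𝒪) (L.N ⧸ S) :=
    isFiniteLength_iff_isNoetherian_isArtinian.mpr ⟨inferInstance, hart'⟩
  exact free_of_regular_of_finiteLength (isRegular_paramSeq ϖ hirr.ne_zero hmax r)
    (ofList_paramSeq ϖ hmax r) L.N hys hmem (by simp [ys]) hfl

/-- **Descent.** At a patching level with zero ideal of relations the bottom module is free and
faithful and the kernel of `ψ` is generated by the images of the variables. -/
theorem patching_descent [IsDomain 𝒪] [IsDiscreteValuationRing 𝒪] [Nontrivial M]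
    (hJ : J = ⊥) :
    Module.Free R M ∧ Module.annihilator R M = ⊥ ∧ RingHom.ker L.ψ = phiIdeal L := by
  have := free_N L hJ
  let v := Module.Free.chooseBasis (MvPowerSeries (Fin r) 𝒪) L.N
  have : Nontrivial L.N := L.π_surjective.nontrivial
  have : Nonempty (Module.Free.ChooseBasisIndex (MvPowerSeries (Fin r) 𝒪) L.N) := v.index_nonempty
  have hcoord : ∀ x : L.N, L.π x = 0 ↔ ∀ j, v.repr x j ∈ phiIdeal L := fun x => by
    rw [L.ker_π, ← v.span_eq, Submodule.mem_ideal_smul_span_iff_exists_sum]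
    constructor
    · rintro ⟨a, ha, rfl⟩ j
      rw [← Finsupp.linearCombination_apply, v.repr_linearCombination]
      exact ha j
    · exact fun h => ⟨v.repr x, h, v.linearCombination_repr x⟩
  have hker : RingHom.ker L.ψ = phiIdeal L := by
    refine le_antisymm (fun f hf => ?_) (phiIdeal_le_ker L)
    obtain ⟨j⟩ := ‹Nonempty (Module.Free.ChooseBasisIndex (MvPowerSeries (Fin r) 𝒪) L.N)›
    have := (hcoord (f • v j)).mp (by rw [L.π_smul, RingHom.mem_ker.mp hf, zero_smul]) j
    simpa using this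
  have hli : LinearIndependent R fun j => L.π (v j) := by
    rw [linearIndependent_iff']
    intro s g hg j hj
    choose f hf using fun i => L.ψ_surjective (g i)
    have h0 : L.π (∑ i ∈ s, f i • v i) = 0 := by
      simpa [map_sum, L.π_smul, hf] using hg
    have := (hcoord _).mp h0 j
    have h1 : L.ψ (v.repr (∑ i ∈ s, f i • v i) j) = 0 := phiIdeal_le_ker L this
    simpa [map_sum, Finsupp.single_apply, hj, hf] using h1
  have hsp : ⊤ ≤ Submodule.span R (Set.range fun j => L.π (v j)) := by
    intro m _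
    obtain ⟨x, rfl⟩ := L.π_surjective m
    rw [← v.linearCombination_repr x, Finsupp.linearCombination_apply, Finsupp.sum, map_sum]
    refine Submodule.sum_mem _ fun j _ => ?_
    rw [L.π_smul]
    exact Submodule.smul_mem _ _ (Submodule.subset_span ⟨j, rfl⟩)
  have hfree : Module.Free R M := Module.Free.of_basis (Module.Basis.mk hli hsp)
  exact ⟨hfree, Module.annihilator_eq_bot.mpr inferInstance, hker⟩

end Fermat.Agent.Patching
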